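/-
S24 package AN-BRIDGE (generic part): a ring hom `Ψ : A →+* E` into a field which has the same
kernel as `ev : A →+* F` extends uniquely to the field `F`, provided every element of `F` is a
quotient of values of `ev`.  Transfer of order statements for `E = LaurentSeries ℂ`.
-/
import Mathlib

set_option autoImplicit false

noncomputable section

namespace Fermat.Agent.S24.H47

section Generic

variable {A F E : Type*} [CommRing A] [Field F] [Field E]

/-- The range of `ev` has fraction field `F`. -/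
theorem isFractionRing_range (ev : A →+* F)
    (hfrac : ∀ f : F, ∃ a b : A, ev b ≠ 0 ∧ f = ev a / ev b) :
    IsFractionRing ev.range F := by
  refine IsFractionRing.of_field (R := ev.range) (K := F) fun z => ?_
  obtain ⟨a, b, -, rfl⟩ := hfrac z
  exact ⟨⟨ev a, a, rfl⟩, ⟨ev b, b, rfl⟩, rfl⟩

/-- The ring hom induced by `Ψ` on the range of `ev`. -/
def rangeHom (ev : A →+* F) (Ψ : A →+* E) (hker : ∀ a, ev a = 0 → Ψ a = 0) : ev.range →+* E :=
  RingHom.liftOfSurjective ev.rangeRestrict ev.rangeRestrict_surjective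
    ⟨Ψ, fun a ha => by
      rw [RingHom.mem_ker] at ha ⊢
      exact hker a (by simpa using congrArg Subtype.val ha)⟩

theorem rangeHom_apply (ev : A →+* F) (Ψ : A →+* E) (hker : ∀ a, ev a = 0 → Ψ a = 0) (a : A) :
    rangeHom ev Ψ hker (ev.rangeRestrict a) = Ψ a :=
  RingHom.liftOfRightInverse_comp_apply _ _ _ _ a

theorem rangeHom_injective (ev : A →+* F) (Ψ : A →+* E) (hker : ∀ a, Ψ a = 0 ↔ ev a = 0) :
    Function.Injective (rangeHom ev Ψ fun a => (hker a).mpr) := by
  rw [injective_iff_map_eq_zero]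
  rintro ⟨_, a, rfl⟩ h
  have h1 : rangeHom ev Ψ (fun a => (hker a).mpr) (ev.rangeRestrict a) = 0 := h
  rw [rangeHom_apply] at h1
  exact Subtype.ext ((hker a).mp h1)

/-- **Bridge, existence.** The extension of `Ψ` to `F`. -/
def extend (ev : A →+* F) (hfrac : ∀ f : F, ∃ a b : A, ev b ≠ 0 ∧ f = ev a / ev b)
    (Ψ : A →+* E) (hker : ∀ a, Ψ a = 0 ↔ ev a = 0) : F →+* E :=
  haveI := isFractionRing_range ev hfrac
  IsFractionRing.lift (A := ev.range) (K := F) (rangeHom_injective ev Ψ hker)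

@[simp] theorem extend_ev (ev : A →+* F)
    (hfrac : ∀ f : F, ∃ a b : A, ev b ≠ 0 ∧ f = ev a / ev b)
    (Ψ : A →+* E) (hker : ∀ a, Ψ a = 0 ↔ ev a = 0) (a : A) :
    extend ev hfrac Ψ hker (ev a) = Ψ a := by
  have := isFractionRing_range ev hfrac
  have h := IsFractionRing.lift_algebraMap (A := ev.range) (K := F)
    (rangeHom_injective ev Ψ hker) (ev.rangeRestrict a)
  rw [rangeHom_apply] at h
  exact h

theorem extend_div (ev : A →+* F)
    (hfrac : ∀ f : F, ∃ a b : A, ev b ≠ 0 ∧ f = ev a / ev b)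
    (Ψ : A →+* E) (hker : ∀ a, Ψ a = 0 ↔ ev a = 0) (a b : A) :
    extend ev hfrac Ψ hker (ev a / ev b) = Ψ a / Ψ b := by
  rw [map_div₀, extend_ev, extend_ev]

/-- **Bridge, uniqueness.** Two ring homs on `F` which agree on the values of `ev` are equal. -/
theorem ringHom_ext_of_frac (ev : A →+* F)
    (hfrac : ∀ f : F, ∃ a b : A, ev b ≠ 0 ∧ f = ev a / ev b) {φ φ' : F →+* E}
    (h : ∀ a, φ (ev a) = φ' (ev a)) : φ = φ' := by
  ext f
  obtain ⟨a, b, -, rfl⟩ := hfrac f
  rw [map_div₀, map_div₀, h, h]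

theorem extend_unique (ev : A →+* F)
    (hfrac : ∀ f : F, ∃ a b : A, ev b ≠ 0 ∧ f = ev a / ev b)
    (Ψ : A →+* E) (hker : ∀ a, Ψ a = 0 ↔ ev a = 0) (φ : F →+* E) (h : ∀ a, φ (ev a) = Ψ a) :
    φ = extend ev hfrac Ψ hker :=
  ringHom_ext_of_frac ev hfrac fun a => by rw [h, extend_ev]

/-- Existence and uniqueness in one statement. -/
theorem existsUnique_extend (ev : A →+* F)
    (hfrac : ∀ f : F, ∃ a b : A, ev b ≠ 0 ∧ f = ev a / ev b)
    (Ψ : A →+* E) (hker : ∀ a, Ψ a = 0 ↔ ev a = 0) :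
    ∃! φ : F →+* E, ∀ a, φ (ev a) = Ψ a :=
  ⟨extend ev hfrac Ψ hker, extend_ev ev hfrac Ψ hker,
    fun φ h => extend_unique ev hfrac Ψ hker φ h⟩

/-- A family of extensions is injective in the index as soon as the family `Ψ` is. -/
theorem extend_family_injective {X : Type*} (ev : A →+* F)
    (hfrac : ∀ f : F, ∃ a b : A, ev b ≠ 0 ∧ f = ev a / ev b)
    (Ψ : X → A →+* E) (hker : ∀ x a, Ψ x a = 0 ↔ ev a = 0) (hΨ : Function.Injective Ψ) :
    Function.Injective fun x => extend ev hfrac (Ψ x) (hker x) := by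
  intro x y hxy
  apply hΨ
  ext a
  have := congrArg (fun φ : F →+* E => φ (ev a)) hxy
  simpa using this

end Generic

section Order

variable {L : Type*} [Field L]

/-- Order of a quotient of nonzero Laurent series. -/
theorem order_div {x y : LaurentSeries L} (hx : x ≠ 0) (hy : y ≠ 0) :
    (x / y).order = x.order - y.order := by
  have h : (x / y * y).order = (x / y).order + y.order :=
    HahnSeries.order_mul (div_ne_zero hx hy) hy
  rw [div_mul_cancel₀ x hy] at h
  omega

variable {A F : Type*} [CommRing A] [Field F]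

/-- Order of the extension at a quotient. -/
theorem order_extend_div (ev : A →+* F)
    (hfrac : ∀ f : F, ∃ a b : A, ev b ≠ 0 ∧ f = ev a / ev b)
    (Ψ : A →+* LaurentSeries L) (hker : ∀ a, Ψ a = 0 ↔ ev a = 0) {a b : A}
    (ha : ev a ≠ 0) (hb : ev b ≠ 0) :
    (extend ev hfrac Ψ hker (ev a / ev b)).order = (Ψ a).order - (Ψ b).order := by
  rw [extend_div]
  exact order_div (fun h => ha ((hker a).mp h)) (fun h => hb ((hker b).mp h))

/-- Transfer of a linear relation between orders from polynomials to the field: if an additive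
"test" `T : ℤ → Prop` (containing `0`, closed under subtraction) holds for the orders of all
`Ψ a`, it holds for the orders of all values of the extension. -/
theorem order_extend_induction (ev : A →+* F)
    (hfrac : ∀ f : F, ∃ a b : A, ev b ≠ 0 ∧ f = ev a / ev b)
    (Ψ : A →+* LaurentSeries L) (hker : ∀ a, Ψ a = 0 ↔ ev a = 0) (T : ℤ → Prop)
    (h0 : T 0) (hsub : ∀ m n, T m → T n → T (m - n)) (hΨ : ∀ a, T (Ψ a).order) (f : F) :
    T (extend ev hfrac Ψ hker f).order := by
  obtain ⟨a, b, hb, rfl⟩ := hfrac f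
  by_cases ha : ev a = 0
  · rw [ha, zero_div, map_zero, HahnSeries.order_zero]
    exact h0
  · rw [order_extend_div ev hfrac Ψ hker ha hb]
    exact hsub _ _ (hΨ a) (hΨ b)

/-- Transfer of equality of orders (for the field `order_ρ` of `LocalData`). -/
theorem order_extend_eq (ev : A →+* F)
    (hfrac : ∀ f : F, ∃ a b : A, ev b ≠ 0 ∧ f = ev a / ev b)
    (Ψ Ψ' : A →+* LaurentSeries L) (hker : ∀ a, Ψ a = 0 ↔ ev a = 0)
    (hker' : ∀ a, Ψ' a = 0 ↔ ev a = 0) (h : ∀ a, (Ψ' a).order = (Ψ a).order) (f : F) :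
    (extend ev hfrac Ψ' hker' f).order = (extend ev hfrac Ψ hker f).order := by
  obtain ⟨a, b, hb, rfl⟩ := hfrac f
  by_cases ha : ev a = 0
  · rw [ha, zero_div, map_zero, map_zero]
  · rw [order_extend_div ev hfrac Ψ hker ha hb, order_extend_div ev hfrac Ψ' hker' ha hb, h, h]

/-- Transfer of divisibility of orders (for the field `dvd_order` of `LocalData`). -/
theorem dvd_order_extend (ev : A →+* F)
    (hfrac : ∀ f : F, ∃ a b : A, ev b ≠ 0 ∧ f = ev a / ev b)
    (Ψ : A →+* LaurentSeries L) (hker : ∀ a, Ψ a = 0 ↔ ev a = 0) (s k : ℤ)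
    (h : ∀ a, s ∣ k * (Ψ a).order) (f : F) :
    s ∣ k * (extend ev hfrac Ψ hker f).order :=
  order_extend_induction ev hfrac Ψ hker (fun m => s ∣ k * m) (by simp)
    (fun m n hm hn => by rw [mul_sub]; exact dvd_sub hm hn) h f

end Order

end Fermat.Agent.S24.H47
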