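/-
S24 package AN-BRIDGE (concrete algebraic part): the modular function field `FF N` is the field of
fractions of the image of `evF N`, i.e. every element is a quotient of polynomials in the `j_d`.
-/
import Fermat.Agent.S24.ModDefs

set_option autoImplicit false

open ModularCurve

noncomputable section

namespace Fermat.Agent.S24.H47

open Fermat.Agent.S24

/-- The generators `j_d`, as Laurent series over `ℚ̄`. -/
def jL (N : ℕ) (d : N.divisors) : LaurentSeries Kbar := (jF N d : LaurentSeries Kbar)

theorem jL_eq (N : ℕ) (d : N.divisors) :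
    jL N d = coeffEmb Kbar (qExpand ℚ (d : ℕ) jq) := rfl

/-- The image of the rational function field under `coeffEmb` lies in the field generated by
the `j_d` over `ℚ̄`. -/
theorem coeffEmb_mem_adjoin_range (N : ℕ) [NeZero N] {x : LaurentSeries ℚ}
    (hx : x ∈ modularFunctionFieldFull N) :
    coeffEmb Kbar x ∈ IntermediateField.adjoin Kbar (Set.range (jL N)) := by
  unfold modularFunctionFieldFull at hx
  induction hx using IntermediateField.adjoin_induction with
  | mem y hy =>
    obtain ⟨d, hd, hdN, rfl⟩ := hy
    have hd0 : d ∈ N.divisors := Nat.mem_divisors.mpr ⟨hdN, NeZero.ne N⟩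
    exact IntermediateField.subset_adjoin Kbar _ ⟨⟨d, hd0⟩, rfl⟩
  | algebraMap c =>
    have h : coeffEmb Kbar (algebraMap ℚ (LaurentSeries ℚ) c) =
        algebraMap Kbar (LaurentSeries Kbar) (algebraMap ℚ Kbar c) := by
      rw [algebraMap_apply_eq_single, algebraMap_laurentSeries_eq_single, coeffEmb,
        coeffMap_single]
    rw [h]
    exact IntermediateField.algebraMap_mem _ _
  | add y z _ _ hy hz => rw [map_add]; exact add_mem hy hz
  | inv y _ hy => rw [map_inv₀]; exact inv_mem hy
  | mul y z _ _ hy hz => rw [map_mul]; exact mul_mem hy hz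

/-- `FF N` is generated over `ℚ̄` by the `j_d`. -/
theorem modularFunctionFieldBar_eq_adjoin (N : ℕ) [NeZero N] :
    modularFunctionFieldBar N = IntermediateField.adjoin Kbar (Set.range (jL N)) := by
  apply le_antisymm
  · unfold modularFunctionFieldBar laurentBaseChange
    rw [IntermediateField.adjoin_le_iff]
    rintro _ ⟨x, hx, rfl⟩
    exact coeffEmb_mem_adjoin_range N hx
  · rw [IntermediateField.adjoin_le_iff]
    rintro _ ⟨d, rfl⟩
    exact (jF N d).2

/-- The coercion of `evF N P` to Laurent series. -/
theorem coe_evF (N : ℕ) (P : MvPolynomial (N.divisors) Kbar) :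
    ((evF N P : FF N) : LaurentSeries Kbar) = MvPolynomial.aeval (jL N) P := by
  have h := MvPolynomial.comp_aeval (jF N) (IntermediateField.val (modularFunctionFieldBar N))
  have h2 := congrArg (fun φ : MvPolynomial (N.divisors) Kbar →ₐ[Kbar] LaurentSeries Kbar => φ P) h
  exact h2

/-- **FRAC.** Every element of the modular function field is a quotient of two polynomials in
the `j_d`. -/
theorem frac_evF (N : ℕ) [NeZero N] (f : FF N) :
    ∃ a b : MvPolynomial (N.divisors) Kbar, evF N b ≠ 0 ∧ f = evF N a / evF N b := by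
  have hf : (f : LaurentSeries Kbar) ∈ IntermediateField.adjoin Kbar (Set.range (jL N)) := by
    rw [← modularFunctionFieldBar_eq_adjoin]
    exact f.2
  rw [IntermediateField.mem_adjoin_range_iff] at hf
  obtain ⟨r, s, hrs⟩ := hf
  by_cases hs : evF N s = 0
  · refine ⟨0, 1, by simp, ?_⟩
    have hs' : MvPolynomial.aeval (jL N) s = 0 := by
      rw [← coe_evF, hs]
      rfl
    rw [hs', div_zero] at hrs
    have hf0 : f = 0 := Subtype.ext hrs
    simp [hf0]
  · refine ⟨r, s, hs, Subtype.ext ?_⟩
    rw [hrs, ← coe_evF, ← coe_evF]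
    rfl

/-- The same statement in the shape of the field `frac` of `GlobalData` (for `R = (evF N).range`). -/
theorem frac_range_evF (N : ℕ) [NeZero N] (f : FF N) :
    ∃ a ∈ (evF N).range, ∃ b ∈ (evF N).range, b ≠ 0 ∧ f = a / b := by
  obtain ⟨a, b, hb, rfl⟩ := frac_evF N f
  exact ⟨evF N a, ⟨a, rfl⟩, evF N b, ⟨b, rfl⟩, hb, rfl⟩

end Fermat.Agent.S24.H47
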