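/-
S24 package AN-BRIDGE (second part): a `LocalData` from polynomial-level data.

Given a family of ring homs `Φ x : MvPolynomial σ K →+* ℂ((z))` with `ker (Φ x) = ker ev`, all the
fields of `LocalData K F X ev.range π` follow from statements about polynomials only.
-/
import Fermat.Agent.S24.Defs
import Fermat.Agent.S24.H47.Extend

set_option autoImplicit false

noncomputable section

namespace Fermat.Agent.S24.H47

/-- Polynomial expressions in an element of an intermediate field stay in it. -/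
theorem aeval_mem_intermediateField {K F : Type*} [Field K] [Field F] [Algebra K F]
    (S : IntermediateField K F) {y : F} (hy : y ∈ S) (r : Polynomial K) :
    Polynomial.aeval y r ∈ S := by
  rw [Polynomial.aeval_eq_sum_range]
  exact sum_mem fun i _ => by
    rw [Algebra.smul_def]
    exact mul_mem (S.algebraMap_mem _) (pow_mem hy i)

/-- Order of the inverse of a nonzero Laurent series. -/
theorem order_inv {L : Type*} [Field L] {y : LaurentSeries L} (hy : y ≠ 0) :
    (y⁻¹).order = -y.order := by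
  have h := order_div (one_ne_zero : (1 : LaurentSeries L) ≠ 0) hy
  rw [one_div, HahnSeries.order_one] at h
  omega

variable {K F X σ : Type*} [Field K] [Field F] [Algebra K F] [Fintype X]

/-- **LocalData from polynomial-level data**, core version: the facts about the parameter `π`
are stated for the extension `extend … (Φ x)` (`extend_ev`, `map_sub`, `map_inv₀` … reduce them
to polynomials). -/
theorem exists_localData_of_poly_core
    (ev : MvPolynomial σ K →ₐ[K] F)
    (hfrac : ∀ f : F, ∃ P Q : MvPolynomial σ K, ev Q ≠ 0 ∧ f = ev P / ev Q)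
    (π : F) (ι : K →+* ℂ) (Φ : X → MvPolynomial σ K →+* LaurentSeries ℂ)
    (hker : ∀ x P, Φ x P = 0 ↔ ev P = 0)
    (hC : ∀ x a, Φ x (MvPolynomial.C a) = HahnSeries.C (ι a))
    (hinj : Function.Injective Φ)
    (s : ℕ) (hs : 0 < s)
    (hπ : ∀ x y, extend (ev : MvPolynomial σ K →+* F) hfrac (Φ x) (hker x) π
      = extend (ev : MvPolynomial σ K →+* F) hfrac (Φ y) (hker y) π)
    (hord : ∀ x, (extend (ev : MvPolynomial σ K →+* F) hfrac (Φ x) (hker x) π).order = s)
    (ρ : Equiv.Perm X)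
    (hρ : ∀ x P, (Φ (ρ x) P).order = (Φ x P).order)
    (hdvd : ∀ x P (k : ℕ), (ρ ^ k) x = x → (s : ℤ) ∣ k * (Φ x P).order)
    (J : MvPolynomial σ K) (hJ : ev J ∈ IntermediateField.adjoin K {π})
    (hsym : ∀ P (k : ℕ), ∃ r : Polynomial K, ∀ x,
      Φ x (Polynomial.aeval J r) = (Finset.univ.val.map fun y => Φ y P).esymm k) :
    ∃ L : LocalData K F X ev.range π,
      L.ι = ι ∧ L.s = s ∧ L.ρ = ρ ∧ ∀ x P, L.φ x (ev P) = Φ x P := by
  have hφ : ∀ x P, extend (ev : MvPolynomial σ K →+* F) hfrac (Φ x) (hker x) (ev P) = Φ x P :=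
    fun x P => extend_ev (ev : MvPolynomial σ K →+* F) hfrac (Φ x) (hker x) P
  refine ⟨{ ι := ι
            φ := fun x => extend (ev : MvPolynomial σ K →+* F) hfrac (Φ x) (hker x)
            φ_algebraMap := ?_
            φ_π := hπ
            φ_injective := extend_family_injective (ev : MvPolynomial σ K →+* F) hfrac Φ hker hinj
            s := s
            s_pos := hs
            order_π := hord
            ρ := ρ
            order_ρ := ?_
            dvd_order := ?_
            sym := ?_ }, rfl, rfl, rfl, hφ⟩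
  · intro x a
    have h : algebraMap K F a = ev (MvPolynomial.C a) := by
      rw [← MvPolynomial.algebraMap_eq, AlgHom.commutes]
    rw [h, hφ, hC]
  · intro x f
    exact order_extend_eq (ev : MvPolynomial σ K →+* F) hfrac (Φ x) (Φ (ρ x)) (hker x)
      (hker (ρ x)) (hρ x) f
  · intro x f k hk
    exact dvd_order_extend (ev : MvPolynomial σ K →+* F) hfrac (Φ x) (hker x) s k
      (fun P => hdvd x P k hk) f
  · rintro a ⟨P, rfl⟩ k
    obtain ⟨r, hr⟩ := hsym P k
    refine ⟨ev (Polynomial.aeval J r), ?_, fun x => ?_⟩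
    · rw [← Polynomial.aeval_algHom_apply]
      exact aeval_mem_intermediateField _ hJ r
    · rw [hφ, hr]
      exact congrArg (fun g => (Finset.univ.val.map g).esymm k)
        (funext fun y => (hφ y P).symm)

/-- **LocalData from polynomial-level data**, parameter `π = ev A` (finite centers:
`A = X₁ - C c`). -/
theorem exists_localData_of_poly
    (ev : MvPolynomial σ K →ₐ[K] F)
    (hfrac : ∀ f : F, ∃ P Q : MvPolynomial σ K, ev Q ≠ 0 ∧ f = ev P / ev Q)
    (π : F) (ι : K →+* ℂ) (Φ : X → MvPolynomial σ K →+* LaurentSeries ℂ)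
    (hker : ∀ x P, Φ x P = 0 ↔ ev P = 0)
    (hC : ∀ x a, Φ x (MvPolynomial.C a) = HahnSeries.C (ι a))
    (hinj : Function.Injective Φ)
    (s : ℕ) (hs : 0 < s)
    (A : MvPolynomial σ K) (hA : π = ev A)
    (hπ : ∀ x y, Φ x A = Φ y A)
    (hord : ∀ x, (Φ x A).order = s)
    (ρ : Equiv.Perm X)
    (hρ : ∀ x P, (Φ (ρ x) P).order = (Φ x P).order)
    (hdvd : ∀ x P (k : ℕ), (ρ ^ k) x = x → (s : ℤ) ∣ k * (Φ x P).order)
    (J : MvPolynomial σ K) (hJ : ev J ∈ IntermediateField.adjoin K {π})
    (hsym : ∀ P (k : ℕ), ∃ r : Polynomial K, ∀ x,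
      Φ x (Polynomial.aeval J r) = (Finset.univ.val.map fun y => Φ y P).esymm k) :
    ∃ L : LocalData K F X ev.range π,
      L.ι = ι ∧ L.s = s ∧ L.ρ = ρ ∧ ∀ x P, L.φ x (ev P) = Φ x P := by
  have hφ : ∀ x, extend (ev : MvPolynomial σ K →+* F) hfrac (Φ x) (hker x) π = Φ x A := by
    intro x
    rw [hA]
    exact extend_ev (ev : MvPolynomial σ K →+* F) hfrac (Φ x) (hker x) A
  refine exists_localData_of_poly_core ev hfrac π ι Φ hker hC hinj s hs ?_ ?_ ρ hρ hdvd J hJ hsym
  · intro x y
    rw [hφ, hφ, hπ x y]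
  · intro x
    rw [hφ, hord]

/-- **LocalData from polynomial-level data**, parameter `π = (ev A)⁻¹` (center at infinity:
`A = X₁`). -/
theorem exists_localData_of_poly_inv
    (ev : MvPolynomial σ K →ₐ[K] F)
    (hfrac : ∀ f : F, ∃ P Q : MvPolynomial σ K, ev Q ≠ 0 ∧ f = ev P / ev Q)
    (π : F) (ι : K →+* ℂ) (Φ : X → MvPolynomial σ K →+* LaurentSeries ℂ)
    (hker : ∀ x P, Φ x P = 0 ↔ ev P = 0)
    (hC : ∀ x a, Φ x (MvPolynomial.C a) = HahnSeries.C (ι a))
    (hinj : Function.Injective Φ)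
    (s : ℕ) (hs : 0 < s)
    (A : MvPolynomial σ K) (hA : π = (ev A)⁻¹)
    (hπ : ∀ x y, Φ x A = Φ y A)
    (hord : ∀ x, (Φ x A).order = -(s : ℤ))
    (ρ : Equiv.Perm X)
    (hρ : ∀ x P, (Φ (ρ x) P).order = (Φ x P).order)
    (hdvd : ∀ x P (k : ℕ), (ρ ^ k) x = x → (s : ℤ) ∣ k * (Φ x P).order)
    (J : MvPolynomial σ K) (hJ : ev J ∈ IntermediateField.adjoin K {π})
    (hsym : ∀ P (k : ℕ), ∃ r : Polynomial K, ∀ x,
      Φ x (Polynomial.aeval J r) = (Finset.univ.val.map fun y => Φ y P).esymm k) :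
    ∃ L : LocalData K F X ev.range π,
      L.ι = ι ∧ L.s = s ∧ L.ρ = ρ ∧ ∀ x P, L.φ x (ev P) = Φ x P := by
  have hφ : ∀ x, extend (ev : MvPolynomial σ K →+* F) hfrac (Φ x) (hker x) π = (Φ x A)⁻¹ := by
    intro x
    rw [hA, map_inv₀]
    congr 1
    exact extend_ev (ev : MvPolynomial σ K →+* F) hfrac (Φ x) (hker x) A
  refine exists_localData_of_poly_core ev hfrac π ι Φ hker hC hinj s hs ?_ ?_ ρ hρ hdvd J hJ hsym
  · intro x y
    rw [hφ, hφ, hπ x y]
  · intro x
    have hne : Φ x A ≠ 0 := by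
      intro h0
      have h1 := hord x
      rw [h0, HahnSeries.order_zero] at h1
      omega
    rw [hφ, order_inv hne, hord]
    simp

end Fermat.Agent.S24.H47
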