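/-
S24 package AN-BRIDGE (third part): the `LocalData` of the modular function field at a finite
center and at infinity, from polynomial-level facts about a family of ring homs
`Φ x : MvPolynomial (N.divisors) Kbar →+* ℂ((z))`.
-/
import Fermat.Agent.S24.ModDefs
import Fermat.Agent.S24.H47.Frac
import Fermat.Agent.S24.H47.LocalOfPoly

set_option autoImplicit false

open ModularCurve
open scoped MatrixGroups

noncomputable section

namespace Fermat.Agent.S24.H47

theorem evF_X_oneDiv (N : ℕ) [NeZero N] : evF N (MvPolynomial.X (oneDiv N)) = jgen N := by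
  simp [evF, jgen]

theorem evF_C (N : ℕ) (a : Kbar) : evF N (MvPolynomial.C a) = algebraMap Kbar (FF N) a := by
  rw [← MvPolynomial.algebraMap_eq, AlgHom.commutes]

/-- `x ∈ K(x - c)`. -/
theorem mem_adjoin_sub_algebraMap {K F : Type*} [Field K] [Field F] [Algebra K F] (x : F)
    (c : K) : x ∈ IntermediateField.adjoin K {x - algebraMap K F c} := by
  have h : x = (x - algebraMap K F c) + algebraMap K F c := by ring
  rw [h]
  exact add_mem (by rw [← h]; exact IntermediateField.mem_adjoin_simple_self K _)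
    (IntermediateField.algebraMap_mem _ c)

/-- `x ∈ K(x⁻¹)`. -/
theorem mem_adjoin_inv {K F : Type*} [Field K] [Field F] [Algebra K F] (x : F) :
    x ∈ IntermediateField.adjoin K {x⁻¹} := by
  have h : x = (x⁻¹)⁻¹ := (inv_inv x).symm
  rw [h]
  exact inv_mem (by rw [← h]; exact IntermediateField.mem_adjoin_simple_self K _)

/-- **Local data at a finite center from polynomial-level facts.** -/
theorem exists_localData_fin_of_poly (N : ℕ) [NeZero N] [Fintype (XX N)] (c : Kbar)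
    (Φ : XX N → MvPolynomial (N.divisors) Kbar →+* LaurentSeries ℂ)
    (hker : ∀ x P, Φ x P = 0 ↔ evF N P = 0)
    (hC : ∀ x a, Φ x (MvPolynomial.C a) = HahnSeries.C (iota a))
    (hinj : Function.Injective Φ)
    (s : ℕ) (hs : 0 < s)
    (hπ : ∀ x y, Φ x (MvPolynomial.X (oneDiv N)) = Φ y (MvPolynomial.X (oneDiv N)))
    (hord : ∀ x, (Φ x (MvPolynomial.X (oneDiv N) - MvPolynomial.C c)).order = s)
    (ρ : Equiv.Perm (XX N))
    (hρ : ∀ x P, (Φ (ρ x) P).order = (Φ x P).order)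
    (hdvd : ∀ x P (k : ℕ), (ρ ^ k) x = x → (s : ℤ) ∣ k * (Φ x P).order)
    (hsym : ∀ P (k : ℕ), ∃ r : Polynomial Kbar, ∀ x,
      Φ x (Polynomial.aeval (MvPolynomial.X (oneDiv N)) r)
        = (Finset.univ.val.map fun y => Φ y P).esymm k) :
    ∃ L : LocalData Kbar (FF N) (XX N) (evF N).range (jgen N - algebraMap Kbar (FF N) c),
      L.ι = iota ∧ L.s = s ∧ L.ρ = ρ ∧ ∀ x P, L.φ x (evF N P) = Φ x P := by
  refine exists_localData_of_poly (evF N) (frac_evF N) _ iota Φ hker hC hinj s hs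
    (MvPolynomial.X (oneDiv N) - MvPolynomial.C c) ?_ ?_ hord ρ hρ hdvd
    (MvPolynomial.X (oneDiv N)) ?_ hsym
  · rw [map_sub, evF_X_oneDiv, evF_C]
  · intro x y
    rw [map_sub, map_sub, hπ x y, hC, hC]
  · rw [evF_X_oneDiv]
    exact mem_adjoin_sub_algebraMap _ c

/-- **Local data at infinity from polynomial-level facts.** -/
theorem exists_localData_inf_of_poly (N : ℕ) [NeZero N] [Fintype (XX N)]
    (Φ : XX N → MvPolynomial (N.divisors) Kbar →+* LaurentSeries ℂ)
    (hker : ∀ x P, Φ x P = 0 ↔ evF N P = 0)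
    (hC : ∀ x a, Φ x (MvPolynomial.C a) = HahnSeries.C (iota a))
    (hinj : Function.Injective Φ)
    (s : ℕ) (hs : 0 < s)
    (hπ : ∀ x y, Φ x (MvPolynomial.X (oneDiv N)) = Φ y (MvPolynomial.X (oneDiv N)))
    (hord : ∀ x, (Φ x (MvPolynomial.X (oneDiv N))).order = -(s : ℤ))
    (ρ : Equiv.Perm (XX N))
    (hρ : ∀ x P, (Φ (ρ x) P).order = (Φ x P).order)
    (hdvd : ∀ x P (k : ℕ), (ρ ^ k) x = x → (s : ℤ) ∣ k * (Φ x P).order)
    (hsym : ∀ P (k : ℕ), ∃ r : Polynomial Kbar, ∀ x,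
      Φ x (Polynomial.aeval (MvPolynomial.X (oneDiv N)) r)
        = (Finset.univ.val.map fun y => Φ y P).esymm k) :
    ∃ L : LocalData Kbar (FF N) (XX N) (evF N).range (jgen N)⁻¹,
      L.ι = iota ∧ L.s = s ∧ L.ρ = ρ ∧ ∀ x P, L.φ x (evF N P) = Φ x P := by
  refine exists_localData_of_poly_inv (evF N) (frac_evF N) _ iota Φ hker hC hinj s hs
    (MvPolynomial.X (oneDiv N)) ?_ hπ hord ρ hρ hdvd
    (MvPolynomial.X (oneDiv N)) ?_ hsym
  · rw [evF_X_oneDiv]
  · rw [evF_X_oneDiv]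
    exact mem_adjoin_inv _

end Fermat.Agent.S24.H47
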